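import Mathlib
import Fermat.Prelude.Def_AlgebraicCurve_DivisorPushPull
import Fermat.Agent.Lib.RR.Ord

/-!
# S37 / E2 (helper100): evaluation at a place of degree one

For a place `v` of `F/K` of degree one, `evPlace v hv : O_v →+* K` is the residue map
("value of a function at the point `v`").
-/

set_option autoImplicit false

open AlgebraicCurve

namespace Fermat.Agent.S37.H100

variable {K F : Type*} [Field K] [Field F] [Algebra K F]

theorem bijective_algebraMap_residueField (v : Place K F) (hv : v.deg = 1) :
    Function.Bijective (algebraMap K v.ResidueField) := by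
  refine ⟨(algebraMap K v.ResidueField).injective, fun y => ?_⟩
  have h1 : (1 : v.ResidueField) ≠ 0 := one_ne_zero
  have hspan := (finrank_eq_one_iff_of_nonzero' (1 : v.ResidueField) h1).mp hv
  obtain ⟨c, hc⟩ := hspan y
  exact ⟨c, by rw [← hc, Algebra.smul_def, mul_one]⟩

/-- The value at a place of degree one. -/
noncomputable def evPlace (v : Place K F) (hv : v.deg = 1) : v.toValuationSubring →+* K :=
  ((RingEquiv.ofBijective (algebraMap K v.ResidueField)
    (bijective_algebraMap_residueField v hv)).symm : v.ResidueField →+* K).comp
    (IsLocalRing.residue v.toValuationSubring)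

theorem algebraMap_evPlace (v : Place K F) (hv : v.deg = 1) (x : v.toValuationSubring) :
    algebraMap K v.ResidueField (evPlace v hv x) = IsLocalRing.residue v.toValuationSubring x := by
  unfold evPlace
  exact (RingEquiv.ofBijective (algebraMap K v.ResidueField)
    (bijective_algebraMap_residueField v hv)).apply_symm_apply _

@[simp]
theorem evPlace_algebraMap (v : Place K F) (hv : v.deg = 1) (c : K) :
    evPlace v hv (algebraMap K v.toValuationSubring c) = c := by
  apply (algebraMap K v.ResidueField).injective
  rw [algebraMap_evPlace, IsScalarTower.algebraMap_apply K v.toValuationSubring v.ResidueField]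
  rfl

theorem evPlace_eq_zero_iff (v : Place K F) (hv : v.deg = 1) (x : v.toValuationSubring) :
    evPlace v hv x = 0 ↔ x ∈ IsLocalRing.maximalIdeal v.toValuationSubring := by
  rw [← IsLocalRing.residue_eq_zero_iff, ← algebraMap_evPlace v hv x]
  constructor
  · intro h; rw [h, map_zero]
  · intro h
    exact (algebraMap K v.ResidueField).injective (by rw [h, map_zero])

theorem evPlace_eq_zero_iff_ord (v : Place K F) (hv : v.deg = 1) (x : v.toValuationSubring) :
    evPlace v hv x = 0 ↔ ((x : F) = 0 ∨ 0 < v.ord (x : F)) := by
  rw [evPlace_eq_zero_iff, Fermat.Agent.Lib.RR.mem_maximalIdeal_iff]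

theorem sub_algebraMap_evPlace_mem (v : Place K F) (hv : v.deg = 1) (x : v.toValuationSubring) :
    x - algebraMap K v.toValuationSubring (evPlace v hv x)
      ∈ IsLocalRing.maximalIdeal v.toValuationSubring := by
  rw [← evPlace_eq_zero_iff v hv, map_sub, evPlace_algebraMap, sub_self]

/-- `evPlace` is characterised by congruence modulo the maximal ideal. -/
theorem evPlace_eq_of_sub_mem (v : Place K F) (hv : v.deg = 1) (x : v.toValuationSubring)
    (c : K) (h : ((x : F) - algebraMap K F c = 0 ∨ 0 < v.ord ((x : F) - algebraMap K F c))) :
    evPlace v hv x = c := by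
  have h1 : evPlace v hv (x - algebraMap K v.toValuationSubring c) = 0 := by
    rw [evPlace_eq_zero_iff_ord]
    exact h
  rw [map_sub, evPlace_algebraMap, sub_eq_zero] at h1
  exact h1

end Fermat.Agent.S37.H100
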