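import Mathlib

/-!
# S37 / E2 (helper100): linear-algebra core of the fibre formula for characteristic polynomials

Mathlib-only.

* `H100.finrank_inf_le_succ` : one filtration step of codimension `≤ 1`.
* `H100.finrank_le_sum_add` : a finite family of filtrations with steps of codimension `≤ 1`.
* `H100.charpoly_eq_prod_of_rootMultiplicity_le` : a monic polynomial over an algebraically
  closed field whose root multiplicities are bounded by those of `∏ (X - a i) ^ e i`, of the
  same degree, is equal to it.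
-/

set_option autoImplicit false

open Polynomial Module

namespace Fermat.Agent.S37.H100

section Filtration

variable {K V : Type*} [Field K] [AddCommGroup V] [Module K V]

/-- One step: if `G'` has "codimension at most one in `G`", then for every finite-dimensional
`E`, `dim (E ⊓ G) ≤ dim (E ⊓ G') + 1`. -/
theorem finrank_inf_le_succ (E G G' : Submodule K V) [FiniteDimensional K E]
    (h : ∀ y ∈ G, ∀ y' ∈ G, y' ∉ G' → ∃ c : K, y - c • y' ∈ G') :
    finrank K ↥(E ⊓ G) ≤ finrank K ↥(E ⊓ G') + 1 := by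
  have : FiniteDimensional K ↥(E ⊓ G') :=
    Submodule.finiteDimensional_of_le (inf_le_left : E ⊓ G' ≤ E)
  by_cases hle : E ⊓ G ≤ G'
  · have : E ⊓ G ≤ E ⊓ G' := le_inf inf_le_left hle
    exact (Submodule.finrank_mono this).trans (Nat.le_succ _)
  · obtain ⟨y', hy', hy'G⟩ := SetLike.not_le_iff_exists.mp hle
    have hsub : E ⊓ G ≤ (E ⊓ G') ⊔ Submodule.span K {y'} := by
      intro y hy
      obtain ⟨c, hc⟩ := h y hy.2 y' hy'.2 hy'G
      have h1 : y - c • y' ∈ E ⊓ G' := ⟨E.sub_mem hy.1 (E.smul_mem c hy'.1), hc⟩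
      have h2 : c • y' ∈ Submodule.span K {y'} :=
        Submodule.smul_mem _ c (Submodule.mem_span_singleton_self y')
      have := Submodule.add_mem_sup h1 h2
      rwa [sub_add_cancel] at this
    calc finrank K ↥(E ⊓ G) ≤ finrank K ↥((E ⊓ G') ⊔ Submodule.span K {y'}) :=
          Submodule.finrank_mono hsub
      _ ≤ finrank K ↥(E ⊓ G') + finrank K ↥(Submodule.span K {y'}) :=
          Submodule.finrank_add_le_finrank_add_finrank _ _
      _ ≤ finrank K ↥(E ⊓ G') + 1 := by
          gcongr
          rcases eq_or_ne y' 0 with h0 | h0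
          · rw [h0, Submodule.span_zero_singleton]
            simp
          · exact (finrank_span_singleton h0).le

/-- A chain of `e` steps. -/
theorem finrank_inf_le_add (E : Submodule K V) [FiniteDimensional K E]
    (G : ℕ → Submodule K V)
    (h : ∀ j, ∀ y ∈ G j, ∀ y' ∈ G j, y' ∉ G (j + 1) → ∃ c : K, y - c • y' ∈ G (j + 1))
    (e : ℕ) :
    finrank K ↥(E ⊓ G 0) ≤ finrank K ↥(E ⊓ G e) + e := by
  induction e with
  | zero => simp
  | succ e ih =>
    have := finrank_inf_le_succ E (G e) (G (e + 1)) (h e)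
    omega

/-- A finite family of filtrations `G w 0 = ⊤ ⊇ G w 1 ⊇ …` with steps of codimension at most
one: `dim E ≤ ∑_{w ∈ T} e w + dim (E ⊓ ⨅_{w ∈ T} G w (e w))`. -/
theorem finrank_le_sum_add {ι : Type*} (T : Finset ι) (e : ι → ℕ)
    (G : ι → ℕ → Submodule K V) (h0 : ∀ w ∈ T, G w 0 = ⊤)
    (h : ∀ w ∈ T, ∀ j, ∀ y ∈ G w j, ∀ y' ∈ G w j, y' ∉ G w (j + 1) →
      ∃ c : K, y - c • y' ∈ G w (j + 1))
    (E : Submodule K V) [FiniteDimensional K E] :
    finrank K ↥E ≤ ∑ w ∈ T, e w + finrank K ↥(E ⊓ ⨅ w ∈ T, G w (e w)) := by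
  classical
  induction T using Finset.induction_on generalizing E with
  | empty =>
    have : (⨅ w ∈ (∅ : Finset ι), G w (e w)) = ⊤ := by simp
    rw [this, inf_top_eq]
    simp
  | insert w T hw ih =>
    have h0' : ∀ w' ∈ T, G w' 0 = ⊤ := fun w' hw' => h0 w' (Finset.mem_insert_of_mem hw')
    have h' : ∀ w' ∈ T, ∀ j, ∀ y ∈ G w' j, ∀ y' ∈ G w' j, y' ∉ G w' (j + 1) →
        ∃ c : K, y - c • y' ∈ G w' (j + 1) :=
      fun w' hw' => h w' (Finset.mem_insert_of_mem hw')
    have h1 := finrank_inf_le_add E (G w) (h w (Finset.mem_insert_self w T)) (e w)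
    rw [h0 w (Finset.mem_insert_self w T), inf_top_eq] at h1
    have : FiniteDimensional K ↥(E ⊓ G w (e w)) :=
      Submodule.finiteDimensional_of_le (inf_le_left : E ⊓ G w (e w) ≤ E)
    have h2 := ih h0' h' (E ⊓ G w (e w))
    rw [Finset.sum_insert hw, Finset.iInf_insert]
    have heq : E ⊓ G w (e w) ⊓ ⨅ w' ∈ T, G w' (e w') =
        E ⊓ (G w (e w) ⊓ ⨅ w' ∈ T, G w' (e w')) := inf_assoc _ _ _
    rw [heq] at h2
    omega

end Filtration

section Roots

variable {K : Type*} [Field K]

/-- A monic polynomial over an algebraically closed field whose root multiplicities are bounded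
by those of `∏ (X - a w) ^ e w`, of the same degree, is equal to this product. -/
theorem eq_prod_of_rootMultiplicity_le [IsAlgClosed K] [DecidableEq K] {ι : Type*}
    (s : Finset ι)
    (a : ι → K) (e : ι → ℕ) (p : K[X]) (hp : p.Monic)
    (hdeg : p.natDegree = ∑ w ∈ s, e w)
    (hle : ∀ μ : K, p.rootMultiplicity μ ≤ ∑ w ∈ s.filter (fun w => a w = μ), e w) :
    p = ∏ w ∈ s, (X - C (a w)) ^ e w := by
  classical
  set r : K[X] := ∏ w ∈ s, (X - C (a w)) ^ e w with hr
  have hrm : r.Monic := monic_prod_of_monic _ _ fun w _ => (monic_X_sub_C (a w)).pow (e w)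
  have hroots : r.roots = ∑ w ∈ s, e w • ({a w} : Multiset K) := by
    rw [hr, roots_prod _ _ (by
      rw [Finset.prod_ne_zero_iff]
      intro w _
      exact pow_ne_zero _ (X_sub_C_ne_zero (a w)))]
    simp only [roots_pow, roots_X_sub_C]
    rfl
  have hcount : ∀ μ : K, r.roots.count μ = ∑ w ∈ s.filter (fun w => a w = μ), e w := by
    intro μ
    rw [hroots, Multiset.count_sum', Finset.sum_filter]
    refine Finset.sum_congr rfl fun w _ => ?_
    rw [Multiset.count_nsmul, Multiset.count_singleton]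
    split_ifs with h1 h2 h2
    · simp
    · exact absurd h1.symm h2
    · exact absurd h2.symm h1
    · simp
  have hle' : p.roots ≤ r.roots := by
    rw [Multiset.le_iff_count]
    intro μ
    rw [count_roots, hcount]
    exact hle μ
  have hcardp : Multiset.card p.roots = p.natDegree :=
    (IsAlgClosed.splits p).natDegree_eq_card_roots.symm
  have hcardr : Multiset.card r.roots = ∑ w ∈ s, e w := by
    rw [hroots, Multiset.card_sum]
    simp
  have heq : p.roots = r.roots :=
    Multiset.eq_of_le_of_card_le hle' (by rw [hcardp, hcardr, hdeg])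
  rw [(IsAlgClosed.splits p).eq_prod_roots_of_monic hp,
    (IsAlgClosed.splits r).eq_prod_roots_of_monic hrm, heq]

end Roots

end Fermat.Agent.S37.H100
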