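import Fermat.Agent.Lib.FF398.Local
import Fermat.Agent.S37.H100.EvPlace
import Fermat.Agent.S37.H100.EigenCount

/-!
# S37 / E2 (helper100): the fibre formula for characteristic polynomials

`F'/F` a finite extension of function fields over an algebraically closed field `K` of
characteristic zero, all places of degree one.  Let `v` be a place of `F` and `g ∈ F'` with value
`a w ∈ K` at every place `w` of `F'` over `v` (i.e. `g - a w ∈ 𝔪_w`).  Then the characteristic
polynomial of `g` over `F` has coefficients in `O_v` and its reduction modulo `𝔪_v` is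
`∏_{w | v} (X - a w) ^ e(w | v)`.
-/

set_option autoImplicit false
set_option linter.unusedSectionVars false
set_option linter.style.haveILetI false

open AlgebraicCurve IsDedekindDomain Polynomial Module
open Fermat.Agent.Lib.FF398

namespace Fermat.Agent.S37.H100

variable {K F F' : Type*} [Field K] [Field F] [Field F'] [Algebra K F] [Algebra K F']
  [Algebra F F'] [IsScalarTower K F F'] [FiniteDimensional F F'] [CharZero F]
variable (v : Place K F)

/-- The integral closure of `O_v` in `F'` is the intersection of the valuation rings of the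
places over `v`. -/
theorem mem_intCl_of_forall_ord_nonneg (x : F')
    (h : ∀ w : Place K F', w.restrict F = v → 0 ≤ w.ord x) : x ∈ intCl F' v := by
  have hx := HeightOneSpectrum.mem_integers_of_valuation_le_one (R := intCl F' v) F' x
    (fun q => by
      rw [← mem_placeOf_iff]
      exact Fermat.Agent.Lib.RR.mem_of_ord_nonneg _ (h (placeOf v q) (restrict_placeOf v q)))
  obtain ⟨y, hy⟩ := hx
  rw [← hy]
  exact y.2

/-- Elements of the integral closure have nonnegative order at the places over `v`. -/
theorem ord_nonneg_of_mem_intCl (x : intCl F' v) (w : Place K F') (hw : w.restrict F = v) :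
    0 ≤ w.ord (x : F') := by
  subst hw
  exact Fermat.Agent.Lib.RR.ord_nonneg_of_mem w (coe_intCl_mem w x)

/-- `ord_w` of an element of `F` at a place `w` over `v`. -/
theorem ord_algebraMap_of_restrict (w : Place K F') (hw : w.restrict F = v) (f : F) :
    w.ord (algebraMap F F' f) = (w.ramificationIndex F : ℤ) * v.ord f := by
  rw [w.ord_restrict f, hw]


/-! ### The reduction map `S → K^ι` -/

section Red

variable (hv : v.deg = 1)

/-- index type of the chosen basis of `S = intCl F' v` over `R = O_v` -/
abbrev Idx : Type _ := Module.Free.ChooseBasisIndex v.toValuationSubring (intCl F' v)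

variable (F') in
/-- the chosen basis of the integral closure over `O_v` -/
noncomputable def bas : Basis (Idx (F' := F') v) v.toValuationSubring (intCl F' v) :=
  Module.Free.chooseBasis _ _

/-- reduction of coordinates -/
noncomputable def red (x : intCl F' v) : Idx (F' := F') v → K :=
  fun i => evPlace v hv ((bas F' v).repr x i)

theorem red_add (x y : intCl F' v) : red v hv (x + y) = red v hv x + red v hv y := by
  funext i
  simp [red]

theorem red_zero : red v hv (0 : intCl F' v) = 0 := by
  funext i
  simp [red]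

theorem red_smul (r : v.toValuationSubring) (x : intCl F' v) :
    red v hv (r • x) = evPlace v hv r • red v hv x := by
  funext i
  simp [red]

theorem red_sub (x y : intCl F' v) : red v hv (x - y) = red v hv x - red v hv y := by
  funext i
  simp [red]

theorem red_surjective : Function.Surjective (red (F' := F') v hv) := by
  intro y
  refine ⟨∑ i, (algebraMap K v.toValuationSubring (y i)) • (bas F' v) i, ?_⟩
  funext i
  simp only [red, map_sum, map_smul, Basis.repr_self, Finsupp.coe_finsetSum, Finsupp.coe_smul,
    Finset.sum_apply, Pi.smul_apply, smul_eq_mul]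
  rw [Finset.sum_eq_single i]
  · simp
  · intro j _ hj
    simp [hj]
  · intro h
    exact absurd (Finset.mem_univ i) h

theorem red_eq_zero_iff {π : v.toValuationSubring} (hπ : Irreducible π) (x : intCl F' v) :
    red v hv x = 0 ↔ ∃ z : intCl F' v, x = π • z := by
  constructor
  · intro h
    have hcoord : ∀ i, ∃ r : v.toValuationSubring, (bas F' v).repr x i = π * r := by
      intro i
      have hi : evPlace v hv ((bas F' v).repr x i) = 0 := congrFun h i
      rw [evPlace_eq_zero_iff, hπ.maximalIdeal_eq, Ideal.mem_span_singleton'] at hi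
      obtain ⟨r, hr⟩ := hi
      exact ⟨r, by rw [← hr, mul_comm]⟩
    choose r hr using hcoord
    refine ⟨∑ i, r i • (bas F' v) i, ?_⟩
    conv_lhs => rw [← (bas F' v).sum_repr x]
    rw [Finset.smul_sum]
    refine Finset.sum_congr rfl fun i _ => ?_
    rw [hr i, mul_smul]
  · rintro ⟨z, rfl⟩
    rw [red_smul]
    have : evPlace v hv π = 0 := by
      rw [evPlace_eq_zero_iff, hπ.maximalIdeal_eq]
      exact Ideal.mem_span_singleton_self π
    rw [this, zero_smul]

/-- multiplication by `g` becomes the reduced matrix -/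
theorem red_mul (g x : intCl F' v) :
    red v hv (g * x) =
      ((Algebra.leftMulMatrix (bas F' v) g).map (evPlace v hv)).mulVec (red v hv x) := by
  funext i
  have h := congrFun (congrArg (fun f => (f : Idx (F' := F') v → v.toValuationSubring))
    (Algebra.leftMulMatrix_mulVec_repr (bas F' v) g x)) i
  simp only [red]
  rw [← h]
  simp only [Matrix.mulVec, dotProduct, Matrix.map_apply, map_sum, map_mul]
  rfl

end Red


/-! ### Orders: "zero or at least `n`" -/

section OrdGe

omit [FiniteDimensional F F'] [CharZero F] [Algebra F F'] [IsScalarTower K F F'] [Algebra K F] in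
theorem ord_mul_of_le (w : Place K F') {f g : F'} {n m : ℤ}
    (hf : f = 0 ∨ n ≤ w.ord f) (hg : g = 0 ∨ m ≤ w.ord g) :
    f * g = 0 ∨ n + m ≤ w.ord (f * g) := by
  rcases eq_or_ne f 0 with rfl | hf0
  · left; simp
  rcases eq_or_ne g 0 with rfl | hg0
  · left; simp
  right
  rw [w.ord_mul hf0 hg0]
  have := hf.resolve_left hf0
  have := hg.resolve_left hg0
  omega

theorem coe_smul_intCl (r : v.toValuationSubring) (x : intCl F' v) :
    ((r • x : intCl F' v) : F') = algebraMap F F' (r : F) * (x : F') := by
  rw [Subalgebra.coe_smul, Algebra.smul_def]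
  rfl

theorem coe_algebraMap_intCl (r : v.toValuationSubring) :
    ((algebraMap v.toValuationSubring (intCl F' v) r : intCl F' v) : F')
      = algebraMap F F' (r : F) := rfl

end OrdGe

/-! ### The filtration by order of vanishing at a place over `v` -/

section Filt

variable (hv : v.deg = 1)

/-- `Gsub v hv w j`: reductions of elements of `S` vanishing to order `≥ j` at `w`. -/
noncomputable def Gsub (w : Place K F') (j : ℕ) : Submodule K (Idx (F' := F') v → K) where
  carrier := {y | ∃ x : intCl F' v, red v hv x = y ∧ ((x : F') = 0 ∨ (j : ℤ) ≤ w.ord (x : F'))}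
  zero_mem' := ⟨0, red_zero v hv, Or.inl rfl⟩
  add_mem' := by
    rintro y y' ⟨x, rfl, hx⟩ ⟨x', rfl, hx'⟩
    refine ⟨x + x', red_add v hv x x', ?_⟩
    exact Fermat.Agent.Lib.RR.ord_add_of_le w hx hx'
  smul_mem' := by
    rintro c y ⟨x, rfl, hx⟩
    refine ⟨algebraMap K v.toValuationSubring c • x, by rw [red_smul, evPlace_algebraMap], ?_⟩
    rw [coe_smul_intCl]
    have h1 : algebraMap F F' ((algebraMap K v.toValuationSubring c : v.toValuationSubring) : F)
        = 0 ∨ (0 : ℤ) ≤ w.ord (algebraMap F F'
          ((algebraMap K v.toValuationSubring c : v.toValuationSubring) : F)) := by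
      right
      have : algebraMap F F' ((algebraMap K v.toValuationSubring c : v.toValuationSubring) : F)
          = algebraMap K F' c := by
        rw [Place.coe_algebraMap, ← IsScalarTower.algebraMap_apply]
      rw [this, Fermat.Agent.Lib.RR.ord_algebraMap]
    have := ord_mul_of_le w h1 hx
    rwa [zero_add] at this

theorem mem_Gsub (w : Place K F') (j : ℕ) (y : Idx (F' := F') v → K) :
    y ∈ Gsub v hv w j ↔
      ∃ x : intCl F' v, red v hv x = y ∧ ((x : F') = 0 ∨ (j : ℤ) ≤ w.ord (x : F')) := Iff.rfl

theorem Gsub_zero (w : Place K F') (hw : w.restrict F = v) : Gsub v hv w 0 = ⊤ := by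
  rw [eq_top_iff]
  intro y _
  obtain ⟨x, rfl⟩ := red_surjective v hv y
  exact ⟨x, rfl, Or.inr (by simpa using ord_nonneg_of_mem_intCl v x w hw)⟩

/-- each step of the filtration has codimension at most one -/
theorem Gsub_step (hdeg' : ∀ w : Place K F', w.deg = 1) (w : Place K F') (j : ℕ)
    (y : Idx (F' := F') v → K) (hy : y ∈ Gsub v hv w j)
    (y' : Idx (F' := F') v → K) (hy' : y' ∈ Gsub v hv w j) (hy'n : y' ∉ Gsub v hv w (j + 1)) :
    ∃ c : K, y - c • y' ∈ Gsub v hv w (j + 1) := by
  obtain ⟨x, rfl, hx⟩ := hy
  obtain ⟨x', rfl, hx'⟩ := hy'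
  have hx'0 : (x' : F') ≠ 0 := fun h0 => hy'n ⟨x', rfl, Or.inl h0⟩
  have hx'j : w.ord (x' : F') = j := by
    have h1 := hx'.resolve_left hx'0
    by_contra hne
    exact hy'n ⟨x', rfl, Or.inr (by push_cast; omega)⟩
  -- the quotient x / x' has nonnegative order
  have hq : 0 ≤ w.ord ((x : F') / (x' : F')) := by
    rcases eq_or_ne (x : F') 0 with h0 | h0
    · rw [h0, zero_div, w.ord_zero]
    · rw [div_eq_mul_inv, w.ord_mul h0 (inv_ne_zero hx'0), w.ord_inv, hx'j]
      have := hx.resolve_left h0
      omega
  obtain ⟨c, hc⟩ := Fermat.Agent.Lib.RR.exists_const_sub w (hdeg' w) hq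
  refine ⟨c, x - algebraMap K v.toValuationSubring c • x', ?_, ?_⟩
  · rw [red_sub, red_smul, evPlace_algebraMap]
  · have hcoe : ((x - algebraMap K v.toValuationSubring c • x' : intCl F' v) : F')
        = (x' : F') * ((x : F') / (x' : F') - algebraMap K F' c) := by
      rw [Subalgebra.coe_sub, coe_smul_intCl, Place.coe_algebraMap,
        ← IsScalarTower.algebraMap_apply]
      field_simp
    rw [hcoe]
    have h1 : (x' : F') = 0 ∨ (j : ℤ) ≤ w.ord (x' : F') := Or.inr hx'j.ge
    have h2 : ((x : F') / (x' : F') - algebraMap K F' c) = 0 ∨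
        (1 : ℤ) ≤ w.ord ((x : F') / (x' : F') - algebraMap K F' c) := by
      rcases hc with hc | hc
      · exact Or.inl hc
      · exact Or.inr hc
    have := ord_mul_of_le w h1 h2
    push_cast
    exact this

end Filt


/-! ### The reduced multiplication matrix and its generalized eigenspaces -/

section Eigen

variable (hv : v.deg = 1)

/-- the matrix of multiplication by `g` on `S / 𝔪_v S = K^ι` -/
noncomputable def redMat (g : intCl F' v) : Matrix (Idx (F' := F') v) (Idx (F' := F') v) K :=
  (Algebra.leftMulMatrix (bas F' v) g).map (evPlace v hv)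

/-- `g - μ` as an element of `S` -/
noncomputable def subConst (g : intCl F' v) (μ : K) : intCl F' v :=
  g - algebraMap v.toValuationSubring (intCl F' v) (algebraMap K v.toValuationSubring μ)

theorem coe_subConst (g : intCl F' v) (μ : K) :
    ((subConst v g μ : intCl F' v) : F') = (g : F') - algebraMap K F' μ := by
  rw [subConst, Subalgebra.coe_sub, coe_algebraMap_intCl, Place.coe_algebraMap,
    ← IsScalarTower.algebraMap_apply]

theorem red_subConst_mul (g : intCl F' v) (μ : K) (x : intCl F' v) :
    red v hv (subConst v g μ * x) =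
      ((redMat v hv g).mulVecLin - μ • (1 : Module.End K (Idx (F' := F') v → K)))
        (red v hv x) := by
  rw [subConst, sub_mul, red_sub, red_mul, ← Algebra.smul_def, red_smul, evPlace_algebraMap]
  rfl

theorem red_subConst_pow_mul (g : intCl F' v) (μ : K) (k : ℕ) (x : intCl F' v) :
    red v hv (subConst v g μ ^ k * x) =
      (((redMat v hv g).mulVecLin - μ • (1 : Module.End K (Idx (F' := F') v → K))) ^ k)
        (red v hv x) := by
  induction k generalizing x with
  | zero => simp
  | succ k ih =>
    rw [pow_succ, mul_assoc, ih, red_subConst_mul, pow_succ]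
    rfl


/-- an element of `S` vanishing to order `≥ e(w|v)` at every `w | v` is divisible by a
uniformizer of `v` -/
theorem exists_eq_smul_of_forall_ord {π : v.toValuationSubring} (hπ1 : v.ord (π : F) = 1)
    (x : intCl F' v)
    (h : ∀ w : Place K F', w.restrict F = v →
      ((x : F') = 0 ∨ (w.ramificationIndex F : ℤ) ≤ w.ord (x : F'))) :
    ∃ z : intCl F' v, x = π • z := by
  have hπ0 : (π : F) ≠ 0 := by
    intro h0
    rw [h0, v.ord_zero] at hπ1
    exact zero_ne_one hπ1
  have hπ0' : algebraMap F F' (π : F) ≠ 0 := by simpa using hπ0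
  have hmem : (x : F') / algebraMap F F' (π : F) ∈ intCl F' v := by
    apply mem_intCl_of_forall_ord_nonneg
    intro w hw
    rcases eq_or_ne (x : F') 0 with h0 | h0
    · rw [h0, zero_div, w.ord_zero]
    · rw [div_eq_mul_inv, w.ord_mul h0 (inv_ne_zero hπ0'), w.ord_inv,
        ord_algebraMap_of_restrict v w hw, hπ1, mul_one]
      have := (h w hw).resolve_left h0
      omega
  refine ⟨⟨_, hmem⟩, Subtype.ext ?_⟩
  rw [coe_smul_intCl]
  field_simp

theorem coe_smul_ord_ge {π : v.toValuationSubring} (hπ1 : v.ord (π : F) = 1)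
    (z : intCl F' v) (w : Place K F') (hw : w.restrict F = v) :
    ((π • z : intCl F' v) : F') = 0 ∨
      (w.ramificationIndex F : ℤ) ≤ w.ord ((π • z : intCl F' v) : F') := by
  rw [coe_smul_intCl]
  have h1 : algebraMap F F' (π : F) = 0 ∨
      (w.ramificationIndex F : ℤ) ≤ w.ord (algebraMap F F' (π : F)) := by
    right
    rw [ord_algebraMap_of_restrict v w hw, hπ1, mul_one]
  have h2 : (z : F') = 0 ∨ (0 : ℤ) ≤ w.ord (z : F') :=
    Or.inr (ord_nonneg_of_mem_intCl v z w hw)
  have := ord_mul_of_le w h1 h2
  rwa [add_zero] at this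

/-- **Key inequality**: the generalized eigenspace for `μ` of the reduced multiplication by `g`
has dimension at most `∑_{w | v, g(w) = μ} e(w | v)`. -/
theorem finrank_maxGenEigenspace_le [DecidableEq K] (hdeg' : ∀ w : Place K F', w.deg = 1)
    (s : Finset (Place K F')) (hs : ∀ w, w ∈ s ↔ w.restrict F = v)
    (g : intCl F' v) (a : Place K F' → K)
    (ha : ∀ w ∈ s, ((g : F') - algebraMap K F' (a w) = 0 ∨
      0 < w.ord ((g : F') - algebraMap K F' (a w))))
    (μ : K) :
    finrank K ↥(Module.End.maxGenEigenspace ((redMat v hv g).mulVecLin) μ) ≤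
      ∑ w ∈ s.filter (fun w => a w = μ), w.ramificationIndex F := by
  set φ : Module.End K (Idx (F' := F') v → K) := (redMat v hv g).mulVecLin with hφ
  set T : Finset (Place K F') := s.filter (fun w => a w = μ) with hT
  have hTs : ∀ w ∈ T, w.restrict F = v := fun w hw => (hs w).mp (Finset.mem_filter.mp hw).1
  have key := finrank_le_sum_add T (fun w => w.ramificationIndex F)
    (fun w j => Gsub v hv w j) (fun w hw => Gsub_zero v hv w (hTs w hw))
    (fun w _ j y hy y' hy' hy'n => Gsub_step v hv hdeg' w j y hy y' hy' hy'n)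
    (φ.maxGenEigenspace μ)
  suffices hbot : φ.maxGenEigenspace μ ⊓ ⨅ w ∈ T, Gsub v hv w (w.ramificationIndex F) = ⊥ by
    rw [hbot, finrank_bot, add_zero] at key
    exact key
  rw [eq_bot_iff]
  rintro y ⟨hyE, hyG⟩
  rw [Submodule.mem_bot]
  simp only [SetLike.mem_coe, Submodule.mem_iInf] at hyG hyE
  obtain ⟨x, rfl⟩ := red_surjective v hv y
  obtain ⟨π, hπ, hπ1⟩ := Fermat.Agent.S24.FF.exists_irreducible_coe v
  obtain ⟨k, hk⟩ := (Module.End.mem_maxGenEigenspace φ μ _).mp hyE
  rw [hφ, ← red_subConst_pow_mul, red_eq_zero_iff v hv hπ] at hk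
  obtain ⟨z, hz⟩ := hk
  have hall : ∀ w : Place K F', w.restrict F = v →
      ((x : F') = 0 ∨ (w.ramificationIndex F : ℤ) ≤ w.ord (x : F')) := by
    intro w hw
    have hws : w ∈ s := (hs w).mpr hw
    by_cases hwμ : a w = μ
    · -- `w ∈ T`
      obtain ⟨xw, hred, hord⟩ := hyG w (Finset.mem_filter.mpr ⟨hws, hwμ⟩)
      have h0 : red v hv (x - xw) = 0 := by rw [red_sub, hred, sub_self]
      obtain ⟨z', hz'⟩ := (red_eq_zero_iff v hv hπ _).mp h0
      have hx : x = xw + π • z' := by rw [← hz']; ring
      rw [hx, Subalgebra.coe_add]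
      exact Fermat.Agent.Lib.RR.ord_add_of_le w hord (coe_smul_ord_ge v hπ1 z' w hw)
    · -- `g - μ` is a unit at `w`
      rcases eq_or_ne (x : F') 0 with hx0 | hx0
      · exact Or.inl hx0
      right
      have hconst : algebraMap K F' (a w) - algebraMap K F' μ ≠ 0 := by
        rw [← map_sub]
        simpa [sub_eq_zero] using hwμ
      have hconst_ord : w.ord (algebraMap K F' (a w) - algebraMap K F' μ) = 0 := by
        rw [← map_sub]
        exact Fermat.Agent.Lib.RR.ord_algebraMap w _
      have hsplit : (g : F') - algebraMap K F' μ =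
          (algebraMap K F' (a w) - algebraMap K F' μ) + ((g : F') - algebraMap K F' (a w)) := by
        ring
      have hh : (g : F') - algebraMap K F' μ ≠ 0 ∧ w.ord ((g : F') - algebraMap K F' μ) = 0 := by
        rcases ha w hws with h0 | hpos
        · rw [hsplit, h0, add_zero]
          exact ⟨hconst, hconst_ord⟩
        · have hne : (g : F') - algebraMap K F' (a w) ≠ 0 := by
            intro h0
            rw [h0, w.ord_zero] at hpos
            exact lt_irrefl _ hpos
          have hlt : w.ord (algebraMap K F' (a w) - algebraMap K F' μ) <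
              w.ord ((g : F') - algebraMap K F' (a w)) := by rw [hconst_ord]; exact hpos
          have := Fermat.Agent.Lib.RR.ord_add_eq_of_lt w hconst hne hlt
          rw [← hsplit, hconst_ord] at this
          refine ⟨?_, this⟩
          intro h0
          have h1 : (g : F') - algebraMap K F' (a w) =
              -(algebraMap K F' (a w) - algebraMap K F' μ) := by
            rw [hsplit] at h0
            exact eq_neg_of_add_eq_zero_right h0
          rw [h1, Fermat.Agent.Lib.RR.ord_neg, hconst_ord] at hpos
          exact lt_irrefl _ hpos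
      have hpow0 : ((subConst v g μ : intCl F' v) : F') ^ k ≠ 0 := by
        rw [coe_subConst]
        exact pow_ne_zero _ hh.1
      have hpow_ord : w.ord (((subConst v g μ : intCl F' v) : F') ^ k) = 0 := by
        rw [coe_subConst, Fermat.Agent.Lib.RR.ord_pow, hh.2, mul_zero]
      have hprod : ((subConst v g μ ^ k * x : intCl F' v) : F') =
          ((subConst v g μ : intCl F' v) : F') ^ k * (x : F') := by
        rw [Subalgebra.coe_mul, Subalgebra.coe_pow]
      have hprod0 : ((subConst v g μ ^ k * x : intCl F' v) : F') ≠ 0 := by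
        rw [hprod]
        exact mul_ne_zero hpow0 hx0
      have hge := coe_smul_ord_ge v hπ1 z w hw
      rw [← hz] at hge
      have hge' := hge.resolve_left hprod0
      rw [hprod, w.ord_mul hpow0 hx0, hpow_ord, zero_add] at hge'
      exact hge'
  obtain ⟨z', hz'⟩ := exists_eq_smul_of_forall_ord v hπ1 x hall
  exact (red_eq_zero_iff v hv hπ x).mpr ⟨z', hz'⟩


/-- the reduced characteristic polynomial -/
theorem redMat_charpoly_eq [IsAlgClosed K] (hdeg' : ∀ w : Place K F', w.deg = 1)
    (s : Finset (Place K F')) (hs : ∀ w, w ∈ s ↔ w.restrict F = v)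
    (g : intCl F' v) (a : Place K F' → K)
    (ha : ∀ w ∈ s, ((g : F') - algebraMap K F' (a w) = 0 ∨
      0 < w.ord ((g : F') - algebraMap K F' (a w)))) :
    (redMat v hv g).charpoly = ∏ w ∈ s, (X - C (a w)) ^ w.ramificationIndex F := by
  classical
  refine eq_prod_of_rootMultiplicity_le s a (fun w => w.ramificationIndex F) _
    (Matrix.charpoly_monic _) ?_ ?_
  · rw [Matrix.charpoly_natDegree_eq_dim]
    have h1 := sum_ramificationIndex v hdeg' s hs
    have h2 : Module.finrank F F' = Module.finrank v.toValuationSubring (intCl F' v) :=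
      IsFractionRing.finrank_eq v.toValuationSubring F (intCl F' v) F'
    have h3 : Module.finrank v.toValuationSubring (intCl F' v) =
        Fintype.card (Idx (F' := F') v) :=
      Module.finrank_eq_card_chooseBasisIndex _ _
    rw [h2, h3] at h1
    exact_mod_cast h1.symm
  · intro μ
    have h1 := LinearMap.finrank_maxGenEigenspace_eq ((redMat v hv g).mulVecLin) μ
    rw [Matrix.charpoly_mulVecLin] at h1
    rw [← h1]
    exact finrank_maxGenEigenspace_le v hv hdeg' s hs g a ha μ

end Eigen

/-! ### The fibre formula -/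

section Main

variable (hv : v.deg = 1)

/-- the characteristic polynomial over `F` of an element of the integral closure comes from
`O_v[X]` -/
theorem charpoly_mulLeft_eq_map (g : intCl F' v) :
    (LinearMap.mulLeft F (g : F')).charpoly =
      (Algebra.leftMulMatrix (bas F' v) g).charpoly.map (algebraMap v.toValuationSubring F) := by
  classical
  haveI : IsLocalization (Algebra.algebraMapSubmonoid (intCl F' v)
      (nonZeroDivisors v.toValuationSubring)) F' :=
    IsIntegralClosure.isLocalization v.toValuationSubring F F' (intCl F' v)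
  have h1 := Algebra.map_leftMulMatrix_localization v.toValuationSubring
    (Rₘ := F) (Sₘ := F') (nonZeroDivisors v.toValuationSubring) (bas F' v) g
  rw [← Matrix.charpoly_map, ← RingHom.mapMatrix_apply, h1, Algebra.leftMulMatrix_apply,
    LinearMap.charpoly_toMatrix]
  rfl

/-- **E2, the fibre formula for characteristic polynomials** (polynomial form).
There is a monic `P ∈ O_v[X]` whose image in `F[X]` is the characteristic polynomial of `g` over
`F` and whose reduction at `v` is `∏_{w | v} (X - g(w)) ^ e(w | v)`. -/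
theorem fibre_charpoly [IsAlgClosed K] (hdeg' : ∀ w : Place K F', w.deg = 1)
    (s : Finset (Place K F')) (hs : ∀ w, w ∈ s ↔ w.restrict F = v)
    (g : F') (a : Place K F' → K)
    (ha : ∀ w ∈ s, (g - algebraMap K F' (a w) = 0 ∨ 0 < w.ord (g - algebraMap K F' (a w)))) :
    ∃ P : Polynomial v.toValuationSubring, P.Monic ∧
      P.map (algebraMap v.toValuationSubring F) = (LinearMap.mulLeft F g).charpoly ∧
      P.map (evPlace v hv) = ∏ w ∈ s, (X - C (a w)) ^ w.ramificationIndex F := by
  have hg : g ∈ intCl F' v := by
    apply mem_intCl_of_forall_ord_nonneg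
    intro w hw
    have h1 : g - algebraMap K F' (a w) = 0 ∨ (0 : ℤ) ≤ w.ord (g - algebraMap K F' (a w)) := by
      rcases ha w ((hs w).mpr hw) with h | h
      · exact Or.inl h
      · exact Or.inr h.le
    have h2 : algebraMap K F' (a w) = 0 ∨ (0 : ℤ) ≤ w.ord (algebraMap K F' (a w)) :=
      Or.inr (Fermat.Agent.Lib.RR.ord_algebraMap w _).ge
    have h3 := Fermat.Agent.Lib.RR.ord_add_of_le w h1 h2
    rw [sub_add_cancel] at h3
    rcases h3 with h3 | h3
    · rw [h3, w.ord_zero]
    · exact h3
  refine ⟨(Algebra.leftMulMatrix (bas F' v) ⟨g, hg⟩).charpoly, Matrix.charpoly_monic _,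
    (charpoly_mulLeft_eq_map v ⟨g, hg⟩).symm, ?_⟩
  rw [← Matrix.charpoly_map]
  exact redMat_charpoly_eq v hv hdeg' s hs ⟨g, hg⟩ a ha

include hv in
/-- **E2** (coefficient form): every coefficient of the characteristic polynomial of `g` over
`F` is congruent modulo `𝔪_v` to the corresponding coefficient of
`∏_{w | v} (X - g(w)) ^ e(w | v)`. -/
theorem fibre_charpoly_coeff [IsAlgClosed K] (hdeg' : ∀ w : Place K F', w.deg = 1)
    (s : Finset (Place K F')) (hs : ∀ w, w ∈ s ↔ w.restrict F = v)
    (g : F') (a : Place K F' → K)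
    (ha : ∀ w ∈ s, (g - algebraMap K F' (a w) = 0 ∨ 0 < w.ord (g - algebraMap K F' (a w))))
    (i : ℕ) :
    (LinearMap.mulLeft F g).charpoly.coeff i -
        algebraMap K F ((∏ w ∈ s, (X - C (a w)) ^ w.ramificationIndex F).coeff i) = 0 ∨
      0 < v.ord ((LinearMap.mulLeft F g).charpoly.coeff i -
        algebraMap K F ((∏ w ∈ s, (X - C (a w)) ^ w.ramificationIndex F).coeff i)) := by
  obtain ⟨P, -, hP1, hP2⟩ := fibre_charpoly v hv hdeg' s hs g a ha
  rw [← hP1, ← hP2, coeff_map, coeff_map]
  have h := sub_algebraMap_evPlace_mem v hv (P.coeff i)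
  rw [Fermat.Agent.Lib.RR.mem_maximalIdeal_iff] at h
  exact h

include hv in
/-- **E2** (membership form): the coefficients of the characteristic polynomial of `g` over `F`
lie in `O_v`. -/
theorem fibre_charpoly_coeff_mem [IsAlgClosed K] (hdeg' : ∀ w : Place K F', w.deg = 1)
    (s : Finset (Place K F')) (hs : ∀ w, w ∈ s ↔ w.restrict F = v)
    (g : F') (a : Place K F' → K)
    (ha : ∀ w ∈ s, (g - algebraMap K F' (a w) = 0 ∨ 0 < w.ord (g - algebraMap K F' (a w))))
    (i : ℕ) : (LinearMap.mulLeft F g).charpoly.coeff i ∈ v.toValuationSubring := by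
  obtain ⟨P, -, hP1, -⟩ := fibre_charpoly v hv hdeg' s hs g a ha
  rw [← hP1, coeff_map]
  exact (P.coeff i).2

end Main

end Fermat.Agent.S37.H100
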