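import Mathlib
import Fermat.Agent.S18.B12.H33.RegChart
import Fermat.Agent.S18.B12.H204.B2Normal
import Fermat.Agent.S18.H394.KummerCharts

/-!
# S37 / RIM-NORMAL (helper100): normality of the special fibre on the charts of the `x`-line

`B12.H204.b2Normal` (full normality form of b2, unconditional) instantiated on the charts
`H138.chart R {x}` of helper138 / helper33 (`B12/H33/RegChart.lean`), with EXACTLY the hypotheses
`hdom`, `hsep`, `S`, `hS`, `hNC` of `H33.regularAlong_chart(_field)`; then the consequence for a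
"Gauss" valuation ring `V ⊇ B` of `F` with `𝔪_V = w V`:

* `normal_chart`, `normal_chart_field` : `b, b₀ ∈ B`, `g ∈ R[X]` primitive,
  `b/g` integral over `B/wB`  ⟹  `b ≡ g(x) b₀ mod w B`;
* `prime_chart_of_qep`  : `w` is prime in the chart (`hdom`) from the `q`-expansion principle;
* `exists_primitive_den` : every `f ∈ V` is `b / g(x)`, `b ∈ B`, `g ∈ R[X]` primitive;
* `exists_chart_lift` : **every `f ∈ V` which is integral over `R[x]` modulo `w V` is congruent
  modulo `w V` to an element of the chart** (= the reduction map `B → V/wV` is onto the integral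
  closure of `κ[x̄]`: hypothesis (H3) of the S37 reduction datum, at the level of a DVR).
-/

set_option autoImplicit false
set_option linter.style.haveILetI false

noncomputable section

namespace Fermat.Agent.S37.H100

open Polynomial
open Fermat.Agent.S18 Fermat.Agent.S18.B12

universe u v

section Main

variable {R : Type u} [CommRing R] [IsDomain R] [IsDiscreteValuationRing R]
  {F : Type v} [Field F] [CharZero F] [Algebra R F]

/-- **NORM-CHART.**  `b2Normal` on the chart `H138.chart R {x}` (same hypotheses as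
`H33.regularAlong_chart`). -/
theorem normal_chart
    {x : F} (hx : Transcendental R x) [FiniteDimensional (H138.baseField R x) F]
    (w : R) (hw : Irreducible w)
    (hdom : Prime (algebraMap R (H138.chart R ({x} : Set F)) w))
    (hsep : ∀ b : H138.chart R ({x} : Set F), ∃ P : R[X][X],
        algebraMap R (H138.chart R ({x} : Set F)) w ∣
          P.eval₂ (H33.chartPolyHom R x : R[X] →+* H138.chart R ({x} : Set F)) b ∧
        ¬ algebraMap R (H138.chart R ({x} : Set F)) w ∣
          (derivative P).eval₂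
            (H33.chartPolyHom R x : R[X] →+* H138.chart R ({x} : Set F)) b)
    (S : Finset R) (hS : ∀ c ∈ S, ∀ c' ∈ S, c ≠ c' → IsUnit (c - c'))
    (hNC : ∀ π : R[X], Prime π → ¬ Associated π (C w) → (∀ c ∈ S, ¬ Associated π (X - C c)) →
        (Ideal.span {H33.chartPolyHom R x π}).IsRadical)
    (b : H138.chart R ({x} : Set F)) (g : R[X]) (hg : ¬ C w ∣ g)
    (hint : ∃ (d : ℕ) (a : Fin d → H138.chart R ({x} : Set F)),
        b ^ d + ∑ i : Fin d, a i * b ^ (i : ℕ) * H33.chartPolyHom R x g ^ (d - (i : ℕ)) ∈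
          Ideal.span {algebraMap R (H138.chart R ({x} : Set F)) w}) :
    ∃ b₀ : H138.chart R ({x} : Set F),
      b - H33.chartPolyHom R x g * b₀ ∈
        Ideal.span {algebraMap R (H138.chart R ({x} : Set F)) w} := by
  classical
  haveI : CharZero R := (algebraMap R F).charZero
  obtain ⟨hic, hfin⟩ := H33.chart_package (R := R) hx
  letI := H33.chartAlgebra R x
  haveI := hic
  haveI := hfin
  haveI : Module.IsTorsionFree R[X] (H138.chart R ({x} : Set F)) :=
    Module.isTorsionFree_iff_algebraMap_injective.2 (H33.chartPolyHom_injective hx)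
  have hCw : algebraMap R[X] (H138.chart R ({x} : Set F)) (C w)
      = algebraMap R (H138.chart R ({x} : Set F)) w := H33.chartPolyHom_C x w
  have hdom' : Prime (algebraMap R[X] (H138.chart R ({x} : Set F)) (C w)) := by
    rw [hCw]; exact hdom
  have hsep' := H425.hsep_poly R w hw (H138.chart R ({x} : Set F)) hdom' (by
    intro b
    obtain ⟨P, h1, h2⟩ := hsep b
    refine ⟨P, ?_, ?_⟩
    · rw [hCw]; exact h1
    · rw [hCw]; exact h2)
  have hnorm := H204.b2Normal.{u, v} R w hw (H138.chart R ({x} : Set F)) hsep' S hS hNC b g hg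
    (by
      obtain ⟨d, a, h⟩ := hint
      refine ⟨d, a, ?_⟩
      rw [hCw]
      exact h)
  obtain ⟨b₀, hb₀⟩ := hnorm
  refine ⟨b₀, ?_⟩
  rw [hCw] at hb₀
  exact hb₀

end Main

section Field

variable {R : Type u} [CommRing R] [IsDomain R] [IsDiscreteValuationRing R]
  {F : Type v} [Field F] [CharZero F] [Algebra R F]

omit [IsDomain R] [IsDiscreteValuationRing R] [CharZero F] in
/-- membership in `w B`, elementwise -/
theorem mem_span_algebraMap_chart_iff {x : F} (w : R) (z : H138.chart R ({x} : Set F)) :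
    z ∈ Ideal.span {algebraMap R (H138.chart R ({x} : Set F)) w} ↔
      ∃ t ∈ H138.chart R ({x} : Set F), (z : F) = algebraMap R F w * t := by
  rw [Ideal.mem_span_singleton, H33.algebraMap_dvd_chart_iff]

/-- **NORM-CHART, field form**: hypotheses `hsep`, `hNC` as in `H33.regularAlong_chart_field`,
relation and conclusion stated by elements of `F`. -/
theorem normal_chart_field
    {x : F} (hx : Transcendental R x) [FiniteDimensional (H138.baseField R x) F]
    (w : R) (hw : Irreducible w)
    (hdom : Prime (algebraMap R (H138.chart R ({x} : Set F)) w))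
    (hsep : ∀ b ∈ H138.chart R ({x} : Set F), ∃ P : F[X],
        (∀ i, P.coeff i ∈ Algebra.adjoin R ({x} : Set F)) ∧
        (∃ t ∈ H138.chart R ({x} : Set F), P.eval b = algebraMap R F w * t) ∧
        ¬ ∃ t ∈ H138.chart R ({x} : Set F), (derivative P).eval b = algebraMap R F w * t)
    (S : Finset R) (hS : ∀ c ∈ S, ∀ c' ∈ S, c ≠ c' → IsUnit (c - c'))
    (hNC : ∀ π : R[X], Prime π → ¬ Associated π (C w) → (∀ c ∈ S, ¬ Associated π (X - C c)) →
        ∀ b ∈ H138.chart R ({x} : Set F),
          (∃ t ∈ H138.chart R ({x} : Set F), b ^ 2 = aeval x π * t) →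
          ∃ t ∈ H138.chart R ({x} : Set F), b = aeval x π * t)
    {b : F} (hb : b ∈ H138.chart R ({x} : Set F)) (g : R[X]) (hg : ¬ C w ∣ g)
    (d : ℕ) (a : Fin d → F) (ha : ∀ i, a i ∈ H138.chart R ({x} : Set F))
    (hrel : ∃ t ∈ H138.chart R ({x} : Set F),
      b ^ d + ∑ i : Fin d, a i * b ^ (i : ℕ) * aeval x g ^ (d - (i : ℕ)) =
        algebraMap R F w * t) :
    ∃ b₀ ∈ H138.chart R ({x} : Set F), ∃ t ∈ H138.chart R ({x} : Set F),
      b - aeval x g * b₀ = algebraMap R F w * t := by
  have key := normal_chart hx w hw hdom ?_ S hS ?_ ⟨b, hb⟩ g hg ?_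
  · obtain ⟨b₀, hb₀⟩ := key
    rw [mem_span_algebraMap_chart_iff] at hb₀
    obtain ⟨t, ht, h⟩ := hb₀
    refine ⟨b₀, b₀.2, t, ht, ?_⟩
    rw [← h]
    simp only [AddSubgroupClass.coe_sub, MulMemClass.coe_mul, H33.coe_chartPolyHom]
  · intro b
    obtain ⟨P, hP, h1, h2⟩ := hsep b b.2
    have hlift : P ∈ Polynomial.lifts (aeval x : R[X] →ₐ[R] F).toRingHom := by
      rw [Polynomial.lifts_iff_coeff_lifts]
      intro n
      have := hP n
      rw [Algebra.adjoin_singleton_eq_range_aeval] at this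
      obtain ⟨q, hq⟩ := this
      exact ⟨q, hq⟩
    obtain ⟨Q, hQ⟩ := (Polynomial.mem_lifts P).1 hlift
    refine ⟨Q, ?_, ?_⟩
    · rw [H33.algebraMap_dvd_chart_iff, H33.coe_eval₂_chartPolyHom, hQ]
      exact h1
    · rw [H33.algebraMap_dvd_chart_iff, H33.coe_eval₂_chartPolyHom, ← derivative_map, hQ]
      exact h2
  · intro π hπ h1 h2
    rw [Ideal.isRadical_iff_pow_one_lt 2 one_lt_two]
    intro r hr
    rw [Ideal.mem_span_singleton] at hr ⊢
    rw [H33.chartPolyHom_dvd_chart_iff] at hr ⊢
    obtain ⟨t, ht, h⟩ := hr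
    refine hNC π hπ h1 h2 r r.2 ⟨t, ht, ?_⟩
    rw [← h]
    rfl
  · obtain ⟨t, ht, h⟩ := hrel
    refine ⟨d, fun i => ⟨a i, ha i⟩, ?_⟩
    rw [mem_span_algebraMap_chart_iff]
    refine ⟨t, ht, ?_⟩
    rw [← h]
    simp only [AddMemClass.coe_add, SubmonoidClass.coe_pow, MulMemClass.coe_mul,
      H33.coe_chartPolyHom, AddSubmonoidClass.coe_finsetSum]

end Field

section Gauss

variable {R : Type u} [CommRing R] [IsDomain R] [IsDiscreteValuationRing R]
  {F : Type v} [Field F] [CharZero F] [Algebra R F]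

omit [IsDomain R] [IsDiscreteValuationRing R] [CharZero F] in
/-- `R[x] ⊆ V` as soon as `R ⊆ V` and `x ∈ V`. -/
theorem aeval_mem_valuationSubring {x : F} (V : ValuationSubring F)
    (hRV : ∀ r : R, algebraMap R F r ∈ V) (hxV : x ∈ V) (P : R[X]) : aeval x P ∈ V := by
  rw [Polynomial.aeval_eq_sum_range]
  refine V.toSubring.sum_mem fun i _ => ?_
  rw [Algebra.smul_def]
  exact mul_mem (hRV _) (pow_mem hxV i)

omit [IsDomain R] [IsDiscreteValuationRing R] [CharZero F] in
/-- the chart is contained in `V` -/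
theorem chart_le_valuationSubring {x : F} (V : ValuationSubring F)
    (hRV : ∀ r : R, algebraMap R F r ∈ V) (hxV : x ∈ V) {f : F}
    (hf : f ∈ H138.chart R ({x} : Set F)) : f ∈ V := by
  rw [H138.mem_chart] at hf
  -- transport integrality to `V`
  have hA : ∀ a : Algebra.adjoin R ({x} : Set F), (a : F) ∈ V := by
    rintro ⟨a, ha⟩
    have ha' : a ∈ (aeval x : R[X] →ₐ[R] F).range := by
      rw [← Algebra.adjoin_singleton_eq_range_aeval]
      exact ha
    obtain ⟨P, hP⟩ := ha'
    have h2 : a = aeval x P := hP.symm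
    show a ∈ V
    rw [h2]
    exact aeval_mem_valuationSubring V hRV hxV P
  let i : Algebra.adjoin R ({x} : Set F) →+* V :=
    (algebraMap (Algebra.adjoin R ({x} : Set F)) F).codRestrict V.toSubring hA
  have hi : (algebraMap V F).comp i = algebraMap (Algebra.adjoin R ({x} : Set F)) F := by
    ext a; rfl
  have hint : IsIntegral V f := by
    obtain ⟨p, hp, hpf⟩ := hf
    refine ⟨p.map i, hp.map i, ?_⟩
    rw [Polynomial.eval₂_map, hi]
    exact hpf
  obtain ⟨y, hy⟩ := (IsIntegrallyClosed.isIntegral_iff (R := V) (K := F)).1 hint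
  rw [← hy]
  exact y.2

variable {x : F} (V : ValuationSubring F) (w : R)
  (hRV : ∀ r : R, algebraMap R F r ∈ V) (hxV : x ∈ V)
  (hwV : (algebraMap R F w)⁻¹ ∉ V)
  (hVgen : ∀ f ∈ V, f⁻¹ ∉ V → f * (algebraMap R F w)⁻¹ ∈ V)
  (qep : ∀ b ∈ H138.chart R ({x} : Set F), b * (algebraMap R F w)⁻¹ ∈ V →
    b * (algebraMap R F w)⁻¹ ∈ H138.chart R ({x} : Set F))

include hwV in
omit [IsDomain R] [IsDiscreteValuationRing R] [CharZero F] in
theorem algebraMap_unif_ne_zero : algebraMap R F w ≠ 0 := by
  intro h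
  apply hwV
  rw [h, inv_zero]
  exact V.zero_mem

include hRV hxV hwV hVgen qep in
omit [IsDomain R] [IsDiscreteValuationRing R] [CharZero F] in
/-- **`hdom` from the `q`-expansion principle**: `w` is a prime element of the chart. -/
theorem prime_chart_of_qep : Prime (algebraMap R (H138.chart R ({x} : Set F)) w) := by
  have hw0 := algebraMap_unif_ne_zero V w hwV
  refine ⟨?_, ?_, ?_⟩
  · intro h
    exact hw0 (congrArg Subtype.val h)
  · rintro ⟨⟨u, v, huv, hvu⟩, hu⟩
    have h1 : (u : F) * (v : F) = 1 := congrArg Subtype.val huv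
    have h2 : (u : F) = algebraMap R F w := by
      have h3 : u = algebraMap R (H138.chart R ({x} : Set F)) w := hu
      rw [h3]; rfl
    rw [h2] at h1
    have hv : (v : F) = (algebraMap R F w)⁻¹ := eq_inv_of_mul_eq_one_right h1
    exact hwV (hv ▸ chart_le_valuationSubring V hRV hxV v.2)
  · intro a b hab
    by_cases ha0 : a = 0
    · left
      rw [ha0]
      exact dvd_zero _
    have ha0' : (a : F) ≠ 0 := fun h => ha0 (Subtype.ext h)
    rw [H33.algebraMap_dvd_chart_iff] at hab
    obtain ⟨t, ht, habt⟩ := hab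
    have haV := chart_le_valuationSubring V hRV hxV a.2
    have htV := chart_le_valuationSubring V hRV hxV ht
    have habt' : (a : F) * (b : F) = algebraMap R F w * t := by
      rw [← habt]; rfl
    by_cases hau : (a : F)⁻¹ ∈ V
    · right
      rw [H33.algebraMap_dvd_chart_iff]
      have hb1 : (b : F) * (algebraMap R F w)⁻¹ ∈ V := by
        have : (b : F) * (algebraMap R F w)⁻¹ = (a : F)⁻¹ * t := by
          field_simp
          rw [mul_comm, habt']
        rw [this]
        exact mul_mem hau htV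
      have := qep _ b.2 hb1
      exact ⟨_, this, by field_simp⟩
    · left
      rw [H33.algebraMap_dvd_chart_iff]
      have := qep _ a.2 (hVgen _ haV hau)
      exact ⟨_, this, by field_simp⟩

include hRV hwV qep in
omit [IsDomain R] [IsDiscreteValuationRing R] [CharZero F] in
/-- stripping powers of `w` with the `q`-expansion principle -/
theorem mem_chart_of_pow_mul_mem (n : ℕ) {y : F} (hy : y ∈ V)
    (h : algebraMap R F w ^ n * y ∈ H138.chart R ({x} : Set F)) :
    y ∈ H138.chart R ({x} : Set F) := by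
  have hw0 := algebraMap_unif_ne_zero V w hwV
  induction n with
  | zero => simpa using h
  | succ n ih =>
    apply ih
    have h1 : algebraMap R F w ^ (n + 1) * y * (algebraMap R F w)⁻¹ = algebraMap R F w ^ n * y := by
      rw [pow_succ]
      field_simp
    have h2 : algebraMap R F w ^ (n + 1) * y * (algebraMap R F w)⁻¹ ∈ V := by
      rw [h1]
      exact mul_mem (pow_mem (hRV w) n) hy
    have := qep _ h h2
    rwa [h1] at this

include hRV hxV hwV qep in
/-- **`V = B_(w)` with denominators in `R[x]`**: every `f ∈ V` has a primitive denominator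
`g ∈ R[X]` (`C w ∤ g`) with `g(x) f` in the chart. -/
theorem exists_primitive_den (hx : Transcendental R x) [FiniteDimensional (H138.baseField R x) F]
    (hw : Irreducible w) {f : F} (hf : f ∈ V) :
    ∃ g : R[X], ¬ C w ∣ g ∧ aeval x g * f ∈ H138.chart R ({x} : Set F) := by
  classical
  obtain ⟨d, hd, hd0, hdf⟩ := H394.exists_den (R := R) hx f
  obtain ⟨hic, hfin⟩ := H33.chart_package (R := R) hx
  letI := H33.chartAlgebra R x
  haveI := hic
  haveI := hfin
  haveI : Algebra.IsIntegral R[X] (H138.chart R ({x} : Set F)) := Algebra.IsIntegral.of_finite _ _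
  have hd0' : (⟨d, hd⟩ : H138.chart R ({x} : Set F)) ≠ 0 := fun h => hd0 (congrArg Subtype.val h)
  have hne : (Ideal.span {(⟨d, hd⟩ : H138.chart R ({x} : Set F))}).comap
      (algebraMap R[X] (H138.chart R ({x} : Set F))) ≠ ⊥ :=
    Ideal.comap_ne_bot_of_integral_mem hd0' (Ideal.mem_span_singleton_self _)
      (Algebra.IsIntegral.isIntegral _)
  obtain ⟨G₀, hG₀mem, hG₀0⟩ := Submodule.exists_mem_ne_zero_of_ne_bot hne
  rw [Ideal.mem_comap, Ideal.mem_span_singleton] at hG₀mem
  obtain ⟨e, he⟩ := hG₀mem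
  have he' : aeval x G₀ = d * (e : F) := by
    have h1 := congrArg (fun z : H138.chart R ({x} : Set F) => (z : F)) he
    have h2 : ((algebraMap R[X] (H138.chart R ({x} : Set F)) G₀ :
        H138.chart R ({x} : Set F)) : F) = aeval x G₀ := H33.coe_chartPolyHom x G₀
    rw [← h2]
    exact h1
  have hCw : Irreducible (C w : R[X]) := (prime_C_iff.2 hw.prime).irreducible
  obtain ⟨n, G₁, hG₁, rfl⟩ := WfDvdMonoid.max_power_factor hG₀0 hCw
  refine ⟨G₁, hG₁, ?_⟩
  have hV1 : aeval x G₁ * f ∈ V := mul_mem (aeval_mem_valuationSubring V hRV hxV G₁) hf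
  refine mem_chart_of_pow_mul_mem V w hRV hwV qep n hV1 ?_
  have h3 : algebraMap R F w ^ n * (aeval x G₁ * f) = (e : F) * (d * f) := by
    have : aeval x (C w ^ n * G₁) = algebraMap R F w ^ n * aeval x G₁ := by
      rw [map_mul, map_pow, aeval_C]
    rw [← mul_assoc, ← this, he']
    ring
  rw [h3]
  exact mul_mem e.2 hdf

include hRV hxV hwV hVgen qep in
/-- **Normality of the special fibre, lifting form (H3) at the level of a DVR.**
`V` a valuation ring of `F` with `R[x] ⊆ V`, `𝔪_V = w V`, primitive polynomials in `x` units of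
`V`, and the `q`-expansion principle for the chart `B = H138.chart R {x}`; `hsep`, `S`, `hNC` as
in `H33.regularAlong_chart_field`.  Then every `f ∈ V` satisfying a monic equation with
coefficients in `R[x]` modulo `w V` is congruent modulo `w V` to an element of the chart. -/
theorem exists_chart_lift (hx : Transcendental R x) [FiniteDimensional (H138.baseField R x) F]
    (hw : Irreducible w)
    (hgauss : ∀ g : R[X], ¬ C w ∣ g → (aeval x g)⁻¹ ∈ V)
    (hsep : ∀ b ∈ H138.chart R ({x} : Set F), ∃ P : F[X],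
        (∀ i, P.coeff i ∈ Algebra.adjoin R ({x} : Set F)) ∧
        (∃ t ∈ H138.chart R ({x} : Set F), P.eval b = algebraMap R F w * t) ∧
        ¬ ∃ t ∈ H138.chart R ({x} : Set F), (derivative P).eval b = algebraMap R F w * t)
    (S : Finset R) (hS : ∀ c ∈ S, ∀ c' ∈ S, c ≠ c' → IsUnit (c - c'))
    (hNC : ∀ π : R[X], Prime π → ¬ Associated π (C w) → (∀ c ∈ S, ¬ Associated π (X - C c)) →
        ∀ b ∈ H138.chart R ({x} : Set F),
          (∃ t ∈ H138.chart R ({x} : Set F), b ^ 2 = aeval x π * t) →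
          ∃ t ∈ H138.chart R ({x} : Set F), b = aeval x π * t)
    {f : F} (hf : f ∈ V) (P : R[X][X]) (hP : P.Monic)
    (hPf : (P.map (aeval x : R[X] →ₐ[R] F).toRingHom).eval f * (algebraMap R F w)⁻¹ ∈ V) :
    ∃ b ∈ H138.chart R ({x} : Set F), (f - b) * (algebraMap R F w)⁻¹ ∈ V := by
  classical
  have hw0 := algebraMap_unif_ne_zero V w hwV
  have hdom := prime_chart_of_qep V w hRV hxV hwV hVgen qep
  obtain ⟨g, hg, hgf⟩ := exists_primitive_den V w hRV hxV hwV qep hx hw hf
  have hg0 : g ≠ 0 := by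
    rintro rfl
    exact hg (dvd_zero _)
  have hγ0 : aeval x g ≠ 0 := fun h => hg0 (transcendental_iff.1 hx g h)
  obtain ⟨γ, hγ⟩ : ∃ γ : F, γ = aeval x g := ⟨_, rfl⟩
  rw [← hγ] at hγ0 hgf
  obtain ⟨φ, hφ⟩ : ∃ φ : R[X] →+* F, φ = (aeval x : R[X] →ₐ[R] F).toRingHom := ⟨_, rfl⟩
  rw [← hφ] at hPf
  have hφmem : ∀ p : R[X], φ p ∈ H138.chart R ({x} : Set F) := by
    intro p
    refine H138.adjoin_le_chart _ ?_
    rw [Algebra.adjoin_singleton_eq_range_aeval, hφ]
    exact ⟨p, rfl⟩
  have hγmem : γ ∈ H138.chart R ({x} : Set F) := by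
    have := hφmem g
    rw [hφ] at this
    rw [hγ]
    exact this
  -- the relation
  have hsum : (P.map φ).eval f =
      f ^ P.natDegree + ∑ i : Fin P.natDegree, φ (P.coeff i) * f ^ (i : ℕ) := by
    conv_lhs => rw [hP.as_sum]
    rw [Polynomial.map_add, Polynomial.map_pow, Polynomial.map_X, eval_add, eval_pow, eval_X,
      Polynomial.map_sum, eval_finsetSum, Finset.sum_range]
    refine congrArg₂ (· + ·) rfl (Finset.sum_congr rfl fun i _ => ?_)
    rw [Polynomial.map_mul, Polynomial.map_C, Polynomial.map_pow, Polynomial.map_X, eval_mul,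
      eval_C, eval_pow, eval_X]
  have hrel0 : (γ * f) ^ P.natDegree +
      ∑ i : Fin P.natDegree, φ (P.coeff i) * (γ * f) ^ (i : ℕ) * γ ^ (P.natDegree - (i : ℕ)) =
      γ ^ P.natDegree * (P.map φ).eval f := by
    rw [hsum, mul_add, Finset.mul_sum, mul_pow]
    refine congrArg₂ (· + ·) rfl (Finset.sum_congr rfl fun i _ => ?_)
    have hi : (i : ℕ) + (P.natDegree - (i : ℕ)) = P.natDegree := by have := i.2; omega
    calc φ (P.coeff i) * (γ * f) ^ (i : ℕ) * γ ^ (P.natDegree - (i : ℕ))
        = γ ^ ((i : ℕ) + (P.natDegree - (i : ℕ))) * (φ (P.coeff i) * f ^ (i : ℕ)) := by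
          rw [mul_pow, pow_add]; ring
      _ = γ ^ P.natDegree * (φ (P.coeff i) * f ^ (i : ℕ)) := by rw [hi]
  have hLmem : (γ * f) ^ P.natDegree +
      ∑ i : Fin P.natDegree, φ (P.coeff i) * (γ * f) ^ (i : ℕ) * γ ^ (P.natDegree - (i : ℕ)) ∈
      H138.chart R ({x} : Set F) := by
    refine add_mem (pow_mem hgf _) (sum_mem fun i _ => ?_)
    exact mul_mem (mul_mem (hφmem _) (pow_mem hgf _)) (pow_mem hγmem _)
  have hLV : ((γ * f) ^ P.natDegree +
      ∑ i : Fin P.natDegree, φ (P.coeff i) * (γ * f) ^ (i : ℕ) * γ ^ (P.natDegree - (i : ℕ))) *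
      (algebraMap R F w)⁻¹ ∈ V := by
    rw [hrel0, mul_assoc]
    exact mul_mem (pow_mem (chart_le_valuationSubring V hRV hxV hγmem) _) hPf
  have hLt := qep _ hLmem hLV
  have hgγ : γ⁻¹ ∈ V := by
    rw [hγ]
    exact hgauss g hg
  have hLeq : (γ * f) ^ P.natDegree +
      ∑ i : Fin P.natDegree, φ (P.coeff i) * (γ * f) ^ (i : ℕ) * γ ^ (P.natDegree - (i : ℕ)) =
      algebraMap R F w * (((γ * f) ^ P.natDegree +
      ∑ i : Fin P.natDegree, φ (P.coeff i) * (γ * f) ^ (i : ℕ) * γ ^ (P.natDegree - (i : ℕ))) *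
      (algebraMap R F w)⁻¹) := by
    rw [mul_comm (algebraMap R F w), inv_mul_cancel_right₀ hw0]
  subst hγ
  obtain ⟨b₀, hb₀, t, ht, hbt⟩ := normal_chart_field hx w hw hdom hsep S hS hNC hgf g hg
    P.natDegree (fun i => φ (P.coeff i)) (fun i => hφmem _) ⟨_, hLt, hLeq⟩
  refine ⟨b₀, hb₀, ?_⟩
  have h4 : (f - b₀) * (algebraMap R F w)⁻¹ = t * (aeval x g)⁻¹ := by
    field_simp
    linear_combination hbt
  rw [h4]
  exact mul_mem (chart_le_valuationSubring V hRV hxV ht) hgγ

end Gauss

end Fermat.Agent.S37.H100
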