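import Fermat.Agent.S37.H100.NormChart
import Fermat.Agent.S18.H438.Front.Regular

/-!
# S37 / RIM-NORMAL (helper100): normality of the special fibre of a good model

For `G : Alg.GoodModel Lc Ec Fc R V w x S` (frozen interface of row S18, `S18/Alg/Spec.lean`):

* `goodModel_lift` : every `f ∈ V` (Gauss valuation ring) which satisfies a monic equation with
  coefficients in `R[x]` modulo `w V` is congruent modulo `w V` to an element of the chart
  `Alg.chart Fc R x` (integral closure of `R[x]` in `Fc`).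

This is hypothesis (H3) of the S37 reduction datum at the level of the DVR `R = A ∩ E`, for EVERY
admissible coordinate `x` (`j`, `t₂`, `t₃`).  Proof: `exists_chart_lift` (`NormChart.lean`, i.e.
`B12.H204.b2Normal` on the chart) with the hypotheses discharged by helper438's ALG-FRONT
(`S18/H438/Front/*`: `prime_chart`, `hsep_chart`, `hNC_chart`, `SR`).
`goodModel_lift_inv` is the same statement for the chart at infinity.
-/

set_option autoImplicit false
set_option linter.style.haveILetI false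

noncomputable section

namespace Fermat.Agent.S37.H100

open Polynomial
open Fermat.Agent.S18 Fermat.Agent.S18.Alg Fermat.Agent.S18.H438
open Fermat.Agent.S18.H438.GoodModelFront

variable {Ω : Type*} [Field Ω] {Lc Ec Fc : Subfield Ω} {R V : Subring Ω} {w x : Ω}
  {S : Finset Ω}

/-- In a discrete valuation ring, an element not divisible by a uniformiser is a unit. -/
theorem isUnit_of_not_dvd_irreducible {A : Type*} [CommRing A] [IsDomain A]
    [IsDiscreteValuationRing A] {ϖ : A} (hϖ : Irreducible ϖ) {c : A} (hc : ¬ ϖ ∣ c) :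
    IsUnit c := by
  by_contra hu
  apply hc
  have h1 : c ∈ IsLocalRing.maximalIdeal A := (IsLocalRing.mem_maximalIdeal c).2 hu
  rw [(IsDiscreteValuationRing.irreducible_iff_uniformizer ϖ).1 hϖ,
    Ideal.mem_span_singleton] at h1
  exact h1

variable (G : GoodModel Lc Ec Fc R V w x S)

include G in
/-- `gauss` in the typed world: primitive polynomials in `x` are units of `V`. -/
theorem gauss_typed (g : Polynomial (Rf Fc R)) (hg : ¬ C (wR G) ∣ g) :
    (aeval (xf G) g)⁻¹ ∈ Vf G := by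
  haveI := isDiscreteValuationRing_Rf G
  rw [Polynomial.C_dvd_iff_dvd_coeff, not_forall] at hg
  obtain ⟨i, hi⟩ := hg
  have hu : IsUnit (g.coeff i) := isUnit_of_not_dvd_irreducible (irreducible_wf G) hi
  rw [isUnit_subring_iff] at hu
  have key := G.gauss ((g.map (Rf Fc R).subtype).map Fc.subtype) (fun n => by
    rw [Polynomial.coeff_map, Polynomial.coeff_map]
    exact (g.coeff n).2) ⟨i, by
      rw [Polynomial.coeff_map, Polynomial.coeff_map]
      exact ⟨fun h => hu.1 (Subtype.ext h), hu.2⟩⟩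
  have heq : ((g.map (Rf Fc R).subtype).map Fc.subtype).eval x =
      ((aeval (xf G) g : Fc) : Ω) := by
    rw [Polynomial.eval_map, Polynomial.eval₂_map, Polynomial.aeval_def]
    exact (Polynomial.hom_eval₂ g (algebraMap (Rf Fc R) Fc) Fc.subtype (xf G)).symm
  rw [heq] at key
  show (((aeval (xf G) g)⁻¹ : Fc) : Ω) ∈ V
  exact key

include G in
/-- **Normality of the special fibre of a good model, lifting form.** -/
theorem goodModel_lift {f : Ω} (hf : f ∈ V) (P : Polynomial Ω) (hP : P.Monic)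
    (hPc : ∀ i, P.coeff i ∈ polyRing R x) (hPf : P.eval f * w⁻¹ ∈ V) :
    ∃ b ∈ chart Fc R x, (f - b) * w⁻¹ ∈ V := by
  classical
  haveI := charZero_Fc G
  haveI := isDiscreteValuationRing_Rf G
  haveI := finiteDimensional_baseField G
  have hRF : ∀ r ∈ R, r ∈ Fc := fun r hr => R_le_Fc G hr
  have hfF : f ∈ Fc := G.V_le hf
  -- lift `P` to `R[X][Y]`
  let ψ : Polynomial (Rf Fc R) →+* Ω :=
    Fc.subtype.comp (aeval (xf G) : Polynomial (Rf Fc R) →ₐ[Rf Fc R] Fc).toRingHom
  have hlift : P ∈ Polynomial.lifts ψ := by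
    rw [Polynomial.lifts_iff_coeff_lifts]
    intro n
    obtain ⟨a, ha, h⟩ := exists_mem_baseRing_of_mem_polyRing Fc R (xf G) hRF (hPc n)
    obtain ⟨q, hq⟩ := exists_aeval_eq_of_mem_baseRing (Rf Fc R) (xf G) ha
    refine ⟨q, ?_⟩
    show ((aeval (xf G) q : Fc) : Ω) = _
    rw [hq, h]
  obtain ⟨P', hP'map, -, hP'monic⟩ := Polynomial.lifts_and_natDegree_eq_and_monic hlift hP
  have hqep : ∀ b ∈ H138.chart (Rf Fc R) ({xf G} : Set Fc),
      b * (algebraMap (Rf Fc R) Fc (wR G))⁻¹ ∈ Vf G →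
      b * (algebraMap (Rf Fc R) Fc (wR G))⁻¹ ∈ H138.chart (Rf Fc R) ({xf G} : Set Fc) :=
    fun b hb hbV => qep_fin' G b hb hbV
  have hNC : ∀ π : Polynomial (Rf Fc R), Prime π → ¬ Associated π (C (wR G)) →
      (∀ c ∈ SR Fc R S, ¬ Associated π (X - C c)) →
      ∀ b ∈ H138.chart (Rf Fc R) ({xf G} : Set Fc),
        (∃ t ∈ H138.chart (Rf Fc R) ({xf G} : Set Fc), b ^ 2 = aeval (xf G) π * t) →
        ∃ t ∈ H138.chart (Rf Fc R) ({xf G} : Set Fc), b = aeval (xf G) π * t := by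
    intro π hπ hπw hπS b hb hb2
    have hrad := hNC_chart G π hπ hπw hπS
    have h1 : (⟨b, hb⟩ : H138.chart (Rf Fc R) ({xf G} : Set Fc)) ^ 2 ∈
        Ideal.span {(B12.H33.chartPolyHom (Rf Fc R) (xf G) π :
          H138.chart (Rf Fc R) ({xf G} : Set Fc))} := by
      rw [Ideal.mem_span_singleton, B12.H33.chartPolyHom_dvd_chart_iff]
      obtain ⟨t, ht, h⟩ := hb2
      exact ⟨t, ht, h⟩
    have h2 := hrad (Ideal.mem_radical_iff.2 ⟨2, h1⟩)
    rw [Ideal.mem_span_singleton, B12.H33.chartPolyHom_dvd_chart_iff] at h2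
    exact h2
  have a1 : ∀ r : Rf Fc R, algebraMap (Rf Fc R) Fc r ∈ Vf G := fun r => Rf_le_Vf G r r.2
  have a2 : (algebraMap (Rf Fc R) Fc (wR G))⁻¹ ∉ Vf G := wf_inv_not_mem_Vf G
  have a3 : ∀ f ∈ Vf G, f⁻¹ ∉ Vf G → f * (algebraMap (Rf Fc R) Fc (wR G))⁻¹ ∈ Vf G := Vf_gen G
  have a4 := hsep_chart G
  have a5 := SR_isUnit_sub G
  have a6 := gauss_typed G
  have a7 := transcendental_xf G
  have a8 := irreducible_wf G
  have a9 : (⟨f, hfF⟩ : Fc) ∈ Vf G := hf
  have a10 := xf_mem_Vf G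
  have key := exists_chart_lift (R := Rf Fc R) (F := Fc) (x := xf G) (Vf G) (wR G)
    a1 a10 a2 a3 hqep a7 a8 a6 a4 (SR Fc R S) a5 hNC a9 P' hP'monic
  have hPf' : ((((P'.map (aeval (xf G) : Polynomial (Rf Fc R) →ₐ[Rf Fc R] Fc).toRingHom).eval
      (⟨f, hfF⟩ : Fc) * (algebraMap (Rf Fc R) Fc (wR G))⁻¹ : Fc)) : Ω) ∈ V := by
    have h1 : (((P'.map (aeval (xf G) : Polynomial (Rf Fc R) →ₐ[Rf Fc R] Fc).toRingHom).eval
        (⟨f, hfF⟩ : Fc) : Fc) : Ω) = P.eval f := by
      rw [coe_eval_Fc, Polynomial.map_map]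
      show (P'.map ψ).eval f = _
      rw [hP'map]
    have h2 : ((((P'.map (aeval (xf G) : Polynomial (Rf Fc R) →ₐ[Rf Fc R] Fc).toRingHom).eval
        (⟨f, hfF⟩ : Fc) * (algebraMap (Rf Fc R) Fc (wR G))⁻¹ : Fc)) : Ω) = P.eval f * w⁻¹ := by
      rw [← h1]
      rfl
    rw [h2]
    exact hPf
  obtain ⟨b, hb, hbV⟩ := key hPf'
  refine ⟨(b : Ω), ?_, hbV⟩
  have hb' : b ∈ chartRing (Rf Fc R) (xf G) := hb
  have hb'' := (mem_chartRing_iff Fc R (xf G) hRF).1 hb'
  exact hb''

/-- **(D2) of board v3, unfolded**: this is verbatim the body of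
`Fermat.Agent.S37.Core.NormalAbsStatement` (`S37/Core/Leaves.lean`), proved with imports from
Mathlib and row S18 only. -/
theorem normalAbs_unfolded :
    ∀ (Ω : Type) [Field Ω] (Lc Ec Fc : Subfield Ω) (R V : Subring Ω) (w x : Ω) (S : Finset Ω),
      Alg.GoodModel Lc Ec Fc R V w x S →
      ∀ f ∈ V, ∀ P : Polynomial Ω, P.Monic → (∀ i, P.coeff i ∈ Alg.polyRing R x) →
        P.eval f * w⁻¹ ∈ V →
        ∃ b ∈ Alg.chart Fc R x, (f - b) * w⁻¹ ∈ V :=
  fun _ _ _ _ _ _ _ _ _ _ G _ hf P hP hPc hPf => goodModel_lift G hf P hP hPc hPf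

end Fermat.Agent.S37.H100
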