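import Fermat.Agent.S37.H100.NormGoodModel
import Fermat.Agent.S37.Core.Leaves

/-!
# S37 board v3, LEAF D2 (helper100): `Core.NormalAbsStatement`

Hand-in of the leaf `Fermat.Agent.S37.Core.NormalAbsStatement` (`S37/Core/Leaves.lean`):
normality of the special fibre of an `Alg.GoodModel`, in lifting form.
Proof: `H100.goodModel_lift` (`NormGoodModel.lean`) = `H100.exists_chart_lift`
(`NormChart.lean`; `B12.H204.b2Normal` on the chart) + helper438's ALG-FRONT.
-/

set_option autoImplicit false

namespace Fermat.Agent.S37.H100

/-- **LEAF D2 of board v3.** -/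
theorem normalAbsStatement : Fermat.Agent.S37.Core.NormalAbsStatement :=
  normalAbs_unfolded

end Fermat.Agent.S37.H100
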